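/-
T2-W (lead): the Atkin–Lehner involution `w_q` of the function field of `X₀(N' q)` (`q ∤ N'`) over an
algebraically closed field `𝕜 ⊆ ℂ`, in the Prelude's `q`-expansion model
`barField 𝕜 (N' * q) = laurentBaseChange 𝕜 (modularFunctionFieldFull (N' * q))`.

Construction: `KMod.modIso` + `KMod.toMer` embed the function field into the field `tdmMer` of
meromorphic functions on `ℍ`; precomposition with `W_q = [[q a, 1], [N' q c, q]]` (`q a - N' c = 1`)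
maps `j(dτ) ↦ j(q d τ)` and `j(q d τ) ↦ j(dτ)` for `d ∣ N'`, hence preserves the image.
-/
import Mathlib
import Fermat.Agent.Lib.T1.Dict.ToMer
import Fermat.Agent.Lib.T1.Dict.KMod.Iso
import Fermat.Agent.Lib.T1.Inst.FullC

set_option autoImplicit false
set_option linter.unusedSectionVars false
set_option linter.style.haveILetI false
set_option linter.unusedVariables false

namespace Fermat.Agent.T2

open Fermat.Agent.S24Lib Fermat.Agent.T1 Fermat.Agent.T1.KMod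
open UpperHalfPlane Matrix MatrixGroups ModularCurve HahnSeries
open Fermat.Agent.S22Lib (intGL)

/-! ### Scalar matrices act trivially -/

theorem t2w_det_smul_pos {c : ℤ} (hc : 0 < c) {A : Matrix (Fin 2) (Fin 2) ℤ} (hA : 0 < A.det) :
    0 < (c • A).det := by
  rw [Matrix.det_smul, Fintype.card_fin]
  exact mul_pos (pow_pos hc 2) hA

theorem t2w_intGL_smul (c : ℤ) (hc : 0 < c) (A : Matrix (Fin 2) (Fin 2) ℤ) (hA : 0 < A.det)
    (τ : ℍ) : intGL (c • A) (t2w_det_smul_pos hc hA) • τ = intGL A hA • τ := by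
  apply UpperHalfPlane.ext
  rw [UpperHalfPlane.coe_smul_of_det_pos (Fermat.Agent.S22Lib.intGL_det_pos _ _),
    UpperHalfPlane.coe_smul_of_det_pos (Fermat.Agent.S22Lib.intGL_det_pos _ _)]
  simp only [UpperHalfPlane.num, UpperHalfPlane.denom, Fermat.Agent.S22Lib.intGL_val,
    Matrix.map_apply, Matrix.smul_apply, smul_eq_mul, Int.cast_mul]
  have hc' : ((c : ℝ) : ℂ) ≠ 0 := by exact_mod_cast hc.ne'
  push_cast
  rw [show (c : ℂ) * (A 0 0 : ℂ) * (τ : ℂ) + (c : ℂ) * (A 0 1 : ℂ)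
      = (c : ℂ) * ((A 0 0 : ℂ) * (τ : ℂ) + (A 0 1 : ℂ)) by ring,
    show (c : ℂ) * (A 1 0 : ℂ) * (τ : ℂ) + (c : ℂ) * (A 1 1 : ℂ)
      = (c : ℂ) * ((A 1 0 : ℂ) * (τ : ℂ) + (A 1 1 : ℂ)) by ring]
  exact mul_div_mul_left _ _ (by exact_mod_cast hc.ne')

theorem t2w_jMat_smul (c : ℤ) (hc : 0 < c) (A : Matrix (Fin 2) (Fin 2) ℤ) (hA : 0 < A.det) :
    jMat (c • A) (t2w_det_smul_pos hc hA) = jMat A hA := by
  funext τ
  rw [jMat_apply, jMat_apply, t2w_intGL_smul c hc A hA]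

theorem t2w_jMat_comp (A B : Matrix (Fin 2) (Fin 2) ℤ) (hA : 0 < A.det) (hB : 0 < B.det)
    (hAB : 0 < (A * B).det) (τ : ℍ) :
    jMat A hA (intGL B hB • τ) = jMat (A * B) hAB τ := by
  rw [jMat_apply, jMat_apply, Fermat.Agent.S22Lib.intGL_mul A B hA hB hAB, mul_smul]

theorem t2w_diagMat_det_pos (d : ℕ+) : 0 < (diagMat d).det := by
  rw [diagMat_det]
  exact_mod_cast d.pos

theorem t2w_jGen_one (d : ℕ+) : S24Lib.jGen d 1 = jMat (diagMat d) (t2w_diagMat_det_pos d) := by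
  rw [S24Lib.jGen]
  refine jMat_congr ?_ _ _
  rw [Matrix.SpecialLinearGroup.coe_one, mul_one]

/-! ### The Atkin–Lehner matrix -/

/-- the Atkin–Lehner matrix `W_q = [[q a, 1], [N' q c, q]]` -/
def t2wMat (N' q : ℕ) (a c : ℤ) : Matrix (Fin 2) (Fin 2) ℤ :=
  !![(q : ℤ) * a, 1; (N' : ℤ) * q * c, q]

theorem t2wMat_det (N' q : ℕ) (a c : ℤ) (h : (q : ℤ) * a - N' * c = 1) :
    (t2wMat N' q a c).det = q := by
  rw [t2wMat, Matrix.det_fin_two_of]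
  linear_combination (q : ℤ) * h

theorem t2wMat_det_pos (N' q : ℕ) (hq : 0 < q) (a c : ℤ) (h : (q : ℤ) * a - N' * c = 1) :
    0 < (t2wMat N' q a c).det := by
  rw [t2wMat_det N' q a c h]
  exact_mod_cast hq

/-- `diag(d,1) W_q = γ diag(q d, 1)` with `γ ∈ SL₂(ℤ)`, for `N' = d m` -/
theorem t2w_mat_eq₁ (q : ℕ) (a c : ℤ) (d m : ℕ) (h : (q : ℤ) * a - (d * m : ℕ) * c = 1) :
    ∃ γ : SL(2, ℤ), diagMat d * t2wMat (d * m) q a c
      = (γ : Matrix (Fin 2) (Fin 2) ℤ) * diagMat (q * d) := by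
  refine ⟨⟨!![a, d; (m : ℤ) * c, q], ?_⟩, ?_⟩
  · rw [Matrix.det_fin_two_of]
    push_cast at h
    linear_combination h
  · simp only [diagMat, t2wMat]
    ext i j
    fin_cases i <;> fin_cases j <;>
      simp [Matrix.mul_apply, Fin.sum_univ_two] <;> ring

/-- `diag(q d,1) W_q = q · γ diag(d, 1)` with `γ ∈ SL₂(ℤ)`, for `N' = d m` -/
theorem t2w_mat_eq₂ (q : ℕ) (a c : ℤ) (d m : ℕ) (h : (q : ℤ) * a - (d * m : ℕ) * c = 1) :
    ∃ γ : SL(2, ℤ), diagMat (q * d) * t2wMat (d * m) q a c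
      = (q : ℤ) • ((γ : Matrix (Fin 2) (Fin 2) ℤ) * diagMat d) := by
  refine ⟨⟨!![(q : ℤ) * a, d; (m : ℤ) * c, 1], ?_⟩, ?_⟩
  · rw [Matrix.det_fin_two_of]
    push_cast at h
    linear_combination h
  · simp only [diagMat, t2wMat]
    ext i j
    fin_cases i <;> fin_cases j <;>
      simp [Matrix.mul_apply, Fin.sum_univ_two] <;> ring

/-- `j(d W_q τ) = j(q d τ)` for `d ∣ N'` -/
theorem t2w_jGen_comp₁ (q : ℕ+) (a c : ℤ) (d m : ℕ+) (h : ((q : ℕ) : ℤ) * a - (d * m : ℕ) * c = 1)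
    (τ : ℍ) :
    S24Lib.jGen d 1 (intGL (t2wMat (d * m) q a c) (t2wMat_det_pos _ _ q.pos a c h) • τ)
      = S24Lib.jGen (q * d) 1 τ := by
  obtain ⟨γ, hγ⟩ := t2w_mat_eq₁ q a c d m h
  have hpos : 0 < (diagMat d * t2wMat (d * m) q a c).det := by
    rw [Matrix.det_mul, diagMat_det, t2wMat_det _ _ _ _ h]
    exact mul_pos (by exact_mod_cast d.pos) (by exact_mod_cast q.pos)
  rw [t2w_jGen_one, t2w_jGen_one, t2w_jMat_comp _ _ _ _ hpos]
  have h2 : jMat (diagMat d * t2wMat (d * m) q a c) hpos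
      = jMat ((γ : Matrix (Fin 2) (Fin 2) ℤ) * diagMat ((q * d : ℕ+) : ℕ))
          (det_SL_mul_pos γ (t2w_diagMat_det_pos (q * d))) :=
    jMat_congr (by rw [hγ]; rfl) _ _
  rw [h2, jMat_SL_mul]

/-- `j(q d W_q τ) = j(d τ)` for `d ∣ N'` -/
theorem t2w_jGen_comp₂ (q : ℕ+) (a c : ℤ) (d m : ℕ+) (h : ((q : ℕ) : ℤ) * a - (d * m : ℕ) * c = 1)
    (τ : ℍ) :
    S24Lib.jGen (q * d) 1 (intGL (t2wMat (d * m) q a c) (t2wMat_det_pos _ _ q.pos a c h) • τ)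
      = S24Lib.jGen d 1 τ := by
  obtain ⟨γ, hγ⟩ := t2w_mat_eq₂ q a c d m h
  have hpos : 0 < (diagMat ((q * d : ℕ+) : ℕ) * t2wMat (d * m) q a c).det := by
    rw [Matrix.det_mul, diagMat_det, t2wMat_det _ _ _ _ h]
    exact mul_pos (by exact_mod_cast (q * d).pos) (by exact_mod_cast q.pos)
  rw [t2w_jGen_one, t2w_jGen_one, t2w_jMat_comp _ _ _ _ hpos]
  have hq : (0 : ℤ) < ((q : ℕ) : ℤ) := by exact_mod_cast q.pos
  have h2 : jMat (diagMat ((q * d : ℕ+) : ℕ) * t2wMat (d * m) q a c) hpos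
      = jMat (((q : ℕ) : ℤ) • ((γ : Matrix (Fin 2) (Fin 2) ℤ) * diagMat d))
          (t2w_det_smul_pos hq (det_SL_mul_pos γ (t2w_diagMat_det_pos d))) :=
    jMat_congr (by rw [← hγ]; rfl) _ _
  rw [h2, t2w_jMat_smul _ hq _ (det_SL_mul_pos γ (t2w_diagMat_det_pos d)), jMat_SL_mul]

/-- `j(d W_q τ) = j(q d τ)` for `d ∣ N'`, general form -/
theorem t2w_jGen_comp_dvd₁ (q : ℕ+) (N' : ℕ) (hN' : 0 < N') (a c : ℤ)
    (h : ((q : ℕ) : ℤ) * a - N' * c = 1) (d : ℕ+) (hd : (d : ℕ) ∣ N') (τ : ℍ) :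
    S24Lib.jGen d 1 (intGL (t2wMat N' q a c) (t2wMat_det_pos _ _ q.pos a c h) • τ)
      = S24Lib.jGen (q * d) 1 τ := by
  obtain ⟨m, rfl⟩ := hd
  have hm : 0 < m := Nat.pos_of_ne_zero (by rintro rfl; simp at hN')
  exact t2w_jGen_comp₁ q a c d ⟨m, hm⟩ h τ

/-- `j(q d W_q τ) = j(d τ)` for `d ∣ N'`, general form -/
theorem t2w_jGen_comp_dvd₂ (q : ℕ+) (N' : ℕ) (hN' : 0 < N') (a c : ℤ)
    (h : ((q : ℕ) : ℤ) * a - N' * c = 1) (d : ℕ+) (hd : (d : ℕ) ∣ N') (τ : ℍ) :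
    S24Lib.jGen (q * d) 1 (intGL (t2wMat N' q a c) (t2wMat_det_pos _ _ q.pos a c h) • τ)
      = S24Lib.jGen d 1 τ := by
  obtain ⟨m, rfl⟩ := hd
  have hm : 0 < m := Nat.pos_of_ne_zero (by rintro rfl; simp at hN')
  exact t2w_jGen_comp₂ q a c d ⟨m, hm⟩ h τ

end Fermat.Agent.T2
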