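/-
T2-W (lead), part 2: the Atkin–Lehner involution `t2w 𝕜 N' q : barField 𝕜 (N' * q) ≃ₐ[𝕜] barField 𝕜 (N' * q)`
(`q` prime, `q ∤ N'`), with `t2w (j(q^d)) = j(q^{q d})`, `t2w (j(q^{q d})) = j(q^d)` for `d ∣ N'`,
`t2w ∘ t2w = id`, and `t2w ∘ α = β` for the two degeneracy maps `α, β : barField 𝕜 N' → barField 𝕜 (N' * q)`.
-/
import Mathlib
import Fermat.Agent.Lib.T2.AL.Basic
import Fermat.Prelude.Def_ModularCurve_HeckeOperator

set_option autoImplicit false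
set_option linter.unusedSectionVars false
set_option linter.style.haveILetI false
set_option linter.unusedVariables false

namespace Fermat.Agent.T2

open Fermat.Agent.S24Lib Fermat.Agent.T1 Fermat.Agent.T1.KMod
open UpperHalfPlane Matrix MatrixGroups ModularCurve HahnSeries
open Fermat.Agent.S22Lib (intGL)

attribute [local instance] charZero_k

section Gen

variable (𝕜 : Type) [Field 𝕜] [Algebra ℚ 𝕜] (N : ℕ) [NeZero N]

theorem t2w_neZero_of_dvd {d : ℕ} (hd : d ∣ N) : NeZero d :=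
  ⟨ne_zero_of_dvd_ne_zero (NeZero.ne N) hd⟩

/-- the generator `j(q^d)`, `d ∣ N`, of the function field of `X₀(N)` over `𝕜` -/
noncomputable def t2wJd (d : ℕ) (hd : d ∣ N) : laurentBaseChange 𝕜 (modularFunctionFieldFull N) :=
  haveI : NeZero d := t2w_neZero_of_dvd N hd
  ⟨qExpand 𝕜 d (jqModC 𝕜), by
    rw [← tbi_coeffEmb_jqd]
    exact coeffEmb_mem_laurentBaseChange 𝕜 (jqd_mem_full N hd)⟩

theorem coe_t2wJd (d : ℕ) [NeZero d] (hd : d ∣ N) :
    ((t2wJd 𝕜 N d hd : laurentBaseChange 𝕜 (modularFunctionFieldFull N)) : LaurentSeries 𝕜)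
      = qExpand 𝕜 d (jqModC 𝕜) := rfl

theorem coe_t2wJd' (d : ℕ) [NeZero d] (hd : d ∣ N) :
    ((t2wJd 𝕜 N d hd : laurentBaseChange 𝕜 (modularFunctionFieldFull N)) : LaurentSeries 𝕜)
      = coeffEmb 𝕜 (qExpand ℚ d jq) := (tbi_coeffEmb_jqd 𝕜 d).symm

/-- induction principle: the function field is generated by the constants and the `j(q^d)` -/
theorem t2w_induction {P : laurentBaseChange 𝕜 (modularFunctionFieldFull N) → Prop}
    (hc : ∀ c : 𝕜, P (algebraMap 𝕜 _ c))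
    (hg : ∀ (d : ℕ) (hd : d ∣ N), P (t2wJd 𝕜 N d hd))
    (hadd : ∀ x y, P x → P y → P (x + y))
    (hmul : ∀ x y, P x → P y → P (x * y))
    (hinv : ∀ x, P x → P x⁻¹) (x : laurentBaseChange 𝕜 (modularFunctionFieldFull N)) : P x := by
  obtain ⟨x, hx⟩ := x
  have hE : laurentBaseChange 𝕜 (modularFunctionFieldFull N)
      = IntermediateField.adjoin 𝕜 (divisorExpansionsC 𝕜 N) := tbi_laurentBaseChange_full 𝕜 N
  have hx' : x ∈ IntermediateField.adjoin 𝕜 (divisorExpansionsC 𝕜 N) := hE ▸ hx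
  suffices H : ∀ y : LaurentSeries 𝕜, y ∈ IntermediateField.adjoin 𝕜 (divisorExpansionsC 𝕜 N) →
      ∀ h : y ∈ laurentBaseChange 𝕜 (modularFunctionFieldFull N), P ⟨y, h⟩ from H x hx' hx
  intro y hy
  induction hy using IntermediateField.adjoin_induction with
  | mem y hy =>
    obtain ⟨d, hd0, hd, rfl⟩ := hy
    intro h
    exact hg d hd
  | algebraMap c =>
    intro h
    exact hc c
  | add x y hx hy ihx ihy =>
    intro h
    have hx0 : x ∈ laurentBaseChange 𝕜 (modularFunctionFieldFull N) := hE ▸ hx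
    have hy0 : y ∈ laurentBaseChange 𝕜 (modularFunctionFieldFull N) := hE ▸ hy
    exact hadd ⟨x, hx0⟩ ⟨y, hy0⟩ (ihx hx0) (ihy hy0)
  | inv x hx ihx =>
    intro h
    have hx0 : x ∈ laurentBaseChange 𝕜 (modularFunctionFieldFull N) := hE ▸ hx
    exact hinv ⟨x, hx0⟩ (ihx hx0)
  | mul x y hx hy ihx ihy =>
    intro h
    have hx0 : x ∈ laurentBaseChange 𝕜 (modularFunctionFieldFull N) := hE ▸ hx
    have hy0 : y ∈ laurentBaseChange 𝕜 (modularFunctionFieldFull N) := hE ▸ hy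
    exact hmul ⟨x, hx0⟩ ⟨y, hy0⟩ (ihx hx0) (ihy hy0)

/-- two ring homomorphisms from the function field to a field agreeing on the constants and on the
generators `j(q^d)` are equal -/
theorem t2w_ringHom_ext {R : Type*} [DivisionRing R]
    (φ ψ : laurentBaseChange 𝕜 (modularFunctionFieldFull N) →+* R)
    (hc : ∀ c : 𝕜, φ (algebraMap 𝕜 _ c) = ψ (algebraMap 𝕜 _ c))
    (hg : ∀ (d : ℕ) (hd : d ∣ N), φ (t2wJd 𝕜 N d hd) = ψ (t2wJd 𝕜 N d hd)) : φ = ψ := by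
  ext x
  induction x using t2w_induction with
  | hc c => exact hc c
  | hg d hd => exact hg d hd
  | hadd x y hx hy => rw [map_add, map_add, hx, hy]
  | hmul x y hx hy => rw [map_mul, map_mul, hx, hy]
  | hinv x hx => rw [map_inv₀, map_inv₀, hx]

end Gen

section Emb

variable (𝕜 : Type) [Field 𝕜] [IsAlgClosed 𝕜] [Algebra 𝕜 ℂ] [Algebra ℚ 𝕜] (N : ℕ) [NeZero N]

/-- the embedding of the function field of `X₀(N)` into the meromorphic functions on `ℍ` -/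
noncomputable def t2wEmb : barField 𝕜 N →+* tdmMer :=
  (toMer 𝕜 N).comp ((algebraMap (anField 𝕜 N) (ModField 𝕜 N)).comp
    ((modIso 𝕜 N : barField 𝕜 N ≃ₐ[𝕜] anField 𝕜 N) : barField 𝕜 N →+* anField 𝕜 N))

theorem t2wEmb_apply (x : barField 𝕜 N) :
    t2wEmb 𝕜 N x = toMer 𝕜 N ((modIso 𝕜 N x : anField 𝕜 N) : ModField 𝕜 N) := rfl

theorem t2wEmb_injective : Function.Injective (t2wEmb 𝕜 N) := RingHom.injective _

theorem t2wEmb_const (c : 𝕜) :
    t2wEmb 𝕜 N (algebraMap 𝕜 (barField 𝕜 N) c) = algebraMap ℂ tdmMer (algebraMap 𝕜 ℂ c) := by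
  rw [t2wEmb_apply, AlgEquiv.commutes]
  exact toMer_const 𝕜 N c

/-- `d ∣ N` as a positive natural number -/
def t2wPN (d : ℕ) (hd : d ∣ N) : ℕ+ :=
  ⟨d, Nat.pos_of_ne_zero (ne_zero_of_dvd_ne_zero (NeZero.ne N) hd)⟩

theorem t2wPN_coe (d : ℕ) (hd : d ∣ N) : ((t2wPN N d hd : ℕ+) : ℕ) = d := rfl

theorem t2wPN_dvd (d : ℕ) (hd : d ∣ N) : ((t2wPN N d hd : ℕ+) : ℕ) ∣ N := hd

/-- the function `τ ↦ j(dτ)` as a holomorphic function -/
noncomputable def t2wHol (d : ℕ) (hd : d ∣ N) : holH :=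
  modRingToHol 𝕜 N (jGenR 𝕜 N (t2wPN_dvd N d hd) 1)

theorem t2wHol_apply (d : ℕ) (hd : d ∣ N) (τ : ℍ) :
    ((t2wHol 𝕜 N d hd : holH) : ℍ → ℂ) τ = S24Lib.jGen (t2wPN N d hd) 1 τ := rfl

theorem t2w_modIso_jd (d : ℕ) (hd : d ∣ N) :
    ((modIso 𝕜 N (t2wJd 𝕜 N d hd) : anField 𝕜 N) : ModField 𝕜 N)
      = jGenL 𝕜 N (t2wPN_dvd N d hd) 1 := by
  haveI : NeZero d := t2w_neZero_of_dvd N hd
  apply modFieldQL_injective 𝕜 N
  rw [modFieldQL_modIso 𝕜, coe_t2wJd' 𝕜 N d hd]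
  exact (barQLHom_coeffEmb_jqd 𝕜 N d).trans (modFieldQL_jGenL_one 𝕜 N (t2wPN_dvd N d hd)).symm

theorem t2wEmb_jd (d : ℕ) (hd : d ∣ N) :
    t2wEmb 𝕜 N (t2wJd 𝕜 N d hd) = tdmOfHol (t2wHol 𝕜 N d hd) := by
  rw [t2wEmb_apply, t2w_modIso_jd, KMod.jGenL, toMer_algebraMap]
  rfl

end Emb

end Fermat.Agent.T2
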