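/-
T2-W (lead), part 3: construction of the Atkin–Lehner involution
`t2w 𝕜 N' q h : barField 𝕜 (N' * q) ≃ₐ[𝕜] barField 𝕜 (N' * q)` (`q` prime, `h : ¬ q ∣ N'`).
-/
import Mathlib
import Fermat.Agent.Lib.T2.AL.Field

set_option autoImplicit false
set_option linter.unusedSectionVars false
set_option linter.style.haveILetI false
set_option linter.unusedVariables false

namespace Fermat.Agent.T2

open Fermat.Agent.S24Lib Fermat.Agent.T1 Fermat.Agent.T1.KMod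
open UpperHalfPlane Matrix MatrixGroups ModularCurve HahnSeries
open Fermat.Agent.S22Lib (intGL)

attribute [local instance] charZero_k

section Bezout

variable (N' q : ℕ)

/-- Bézout coefficient `a` with `q a - N' c = 1` -/
def t2wA : ℤ := Int.gcdA q N'

/-- Bézout coefficient `c` with `q a - N' c = 1` -/
def t2wC : ℤ := -Int.gcdB q N'

theorem t2w_bezout (hq : q.Prime) (h : ¬ q ∣ N') :
    (q : ℤ) * t2wA N' q - N' * t2wC N' q = 1 := by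
  have h1 := Int.gcd_eq_gcd_ab q N'
  have hcop : Nat.Coprime q N' := (Nat.Prime.coprime_iff_not_dvd hq).mpr h
  have h2 : Int.gcd (q : ℤ) (N' : ℤ) = 1 := by
    rw [Int.gcd_natCast_natCast]
    exact hcop
  rw [h2] at h1
  rw [t2wA, t2wC]
  push_cast at h1
  linarith

theorem t2w_dvd_cases (hq : q.Prime) {d : ℕ} (hd : d ∣ N' * q) :
    d ∣ N' ∨ ∃ d', d' ∣ N' ∧ d = q * d' := by
  by_cases hqd : q ∣ d
  · obtain ⟨d', rfl⟩ := hqd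
    right
    refine ⟨d', ?_, rfl⟩
    rw [mul_comm N' q] at hd
    exact Nat.dvd_of_mul_dvd_mul_left hq.pos hd
  · left
    have hcop : Nat.Coprime d q := ((Nat.Prime.coprime_iff_not_dvd hq).mpr hqd).symm
    exact hcop.dvd_of_dvd_mul_right hd

end Bezout

section Main

variable (𝕜 : Type) [Field 𝕜] [IsAlgClosed 𝕜] [Algebra 𝕜 ℂ] [Algebra ℚ 𝕜]
variable (N' q : ℕ) [NeZero N'] [hq : Fact q.Prime] (h : ¬ q ∣ N')

/-- `q` as a positive natural number -/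
def t2wQ : ℕ+ := ⟨q, hq.out.pos⟩

/-- the Atkin–Lehner matrix as an element of `GL₂(ℝ)⁺` -/
noncomputable def t2wGL : GL (Fin 2) ℝ :=
  intGL (t2wMat N' (t2wQ q) (t2wA N' q) (t2wC N' q))
    (t2wMat_det_pos _ _ (t2wQ q).pos _ _ (t2w_bezout N' q hq.out h))

theorem t2wGL_det_pos : 0 < (t2wGL N' q h).det.val :=
  Fermat.Agent.S22Lib.intGL_det_pos _ _

/-- precomposition with the Atkin–Lehner matrix on meromorphic functions -/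
noncomputable def t2wW : tdmMer →ₐ[ℂ] tdmMer := tdmComp (t2wGL N' q h) (t2wGL_det_pos N' q h)

theorem t2w_dvd₁ {d : ℕ} (hd : d ∣ N') : d ∣ N' * q := hd.mul_right q

theorem t2w_dvd₂ {d : ℕ} (hd : d ∣ N') : q * d ∣ N' * q := by
  rw [mul_comm q d]
  exact Nat.mul_dvd_mul hd dvd_rfl

theorem t2wPN_mul {d : ℕ} (hd : d ∣ N') :
    t2wQ q * t2wPN (N' * q) d (t2w_dvd₁ N' q hd) = t2wPN (N' * q) (q * d) (t2w_dvd₂ N' q hd) :=
  PNat.eq rfl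

theorem t2wHolComp₁ {d : ℕ} (hd : d ∣ N') :
    tdmHolComp (t2wGL N' q h) (t2wGL_det_pos N' q h) (t2wHol 𝕜 (N' * q) d (t2w_dvd₁ N' q hd))
      = t2wHol 𝕜 (N' * q) (q * d) (t2w_dvd₂ N' q hd) := by
  apply Subtype.ext
  funext τ
  rw [tdmHolComp_apply, t2wHol_apply, t2wHol_apply, ← t2wPN_mul N' q hd]
  exact t2w_jGen_comp_dvd₁ (t2wQ q) N' (Nat.pos_of_ne_zero (NeZero.ne N')) (t2wA N' q)
    (t2wC N' q) (t2w_bezout N' q hq.out h) (t2wPN (N' * q) d (t2w_dvd₁ N' q hd)) hd τ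

theorem t2wHolComp₂ {d : ℕ} (hd : d ∣ N') :
    tdmHolComp (t2wGL N' q h) (t2wGL_det_pos N' q h)
        (t2wHol 𝕜 (N' * q) (q * d) (t2w_dvd₂ N' q hd))
      = t2wHol 𝕜 (N' * q) d (t2w_dvd₁ N' q hd) := by
  apply Subtype.ext
  funext τ
  rw [tdmHolComp_apply, t2wHol_apply, t2wHol_apply, ← t2wPN_mul N' q hd]
  exact t2w_jGen_comp_dvd₂ (t2wQ q) N' (Nat.pos_of_ne_zero (NeZero.ne N')) (t2wA N' q)
    (t2wC N' q) (t2w_bezout N' q hq.out h) (t2wPN (N' * q) d (t2w_dvd₁ N' q hd)) hd τ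

theorem t2wW_hol₁ {d : ℕ} (hd : d ∣ N') :
    t2wW N' q h (tdmOfHol (t2wHol 𝕜 (N' * q) d (t2w_dvd₁ N' q hd)))
      = tdmOfHol (t2wHol 𝕜 (N' * q) (q * d) (t2w_dvd₂ N' q hd)) := by
  rw [t2wW, tdmComp_ofHol, t2wHolComp₁ 𝕜 N' q h hd]

theorem t2wW_hol₂ {d : ℕ} (hd : d ∣ N') :
    t2wW N' q h (tdmOfHol (t2wHol 𝕜 (N' * q) (q * d) (t2w_dvd₂ N' q hd)))
      = tdmOfHol (t2wHol 𝕜 (N' * q) d (t2w_dvd₁ N' q hd)) := by
  rw [t2wW, tdmComp_ofHol, t2wHolComp₂ 𝕜 N' q h hd]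

theorem t2wW_emb_jd₁ {d : ℕ} (hd : d ∣ N') :
    t2wW N' q h (t2wEmb 𝕜 (N' * q) (t2wJd 𝕜 (N' * q) d (t2w_dvd₁ N' q hd)))
      = t2wEmb 𝕜 (N' * q) (t2wJd 𝕜 (N' * q) (q * d) (t2w_dvd₂ N' q hd)) := by
  rw [t2wEmb_jd, t2wEmb_jd, t2wW_hol₁ 𝕜 N' q h hd]

theorem t2wW_emb_jd₂ {d : ℕ} (hd : d ∣ N') :
    t2wW N' q h (t2wEmb 𝕜 (N' * q) (t2wJd 𝕜 (N' * q) (q * d) (t2w_dvd₂ N' q hd)))
      = t2wEmb 𝕜 (N' * q) (t2wJd 𝕜 (N' * q) d (t2w_dvd₁ N' q hd)) := by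
  rw [t2wEmb_jd, t2wEmb_jd, t2wW_hol₂ 𝕜 N' q h hd]

theorem t2wW_emb_const (c : 𝕜) :
    t2wW N' q h (t2wEmb 𝕜 (N' * q) (algebraMap 𝕜 _ c))
      = t2wEmb 𝕜 (N' * q) (algebraMap 𝕜 _ c) := by
  rw [t2wEmb_const, AlgHom.commutes]

/-- the image of the function field is stable under `W_q` -/
theorem t2w_exists_emb (x : barField 𝕜 (N' * q)) :
    ∃ y : barField 𝕜 (N' * q), t2wEmb 𝕜 (N' * q) y = t2wW N' q h (t2wEmb 𝕜 (N' * q) x) := by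
  induction x using t2w_induction with
  | hc c => exact ⟨algebraMap 𝕜 _ c, (t2wW_emb_const 𝕜 N' q h c).symm⟩
  | hg d hd =>
    rcases t2w_dvd_cases N' q hq.out hd with hd' | ⟨d', hd', rfl⟩
    · exact ⟨_, (t2wW_emb_jd₁ 𝕜 N' q h hd').symm⟩
    · exact ⟨_, (t2wW_emb_jd₂ 𝕜 N' q h hd').symm⟩
  | hadd x y hx hy =>
    obtain ⟨x', hx'⟩ := hx
    obtain ⟨y', hy'⟩ := hy
    exact ⟨x' + y', by rw [map_add, map_add, map_add, hx', hy']⟩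
  | hmul x y hx hy =>
    obtain ⟨x', hx'⟩ := hx
    obtain ⟨y', hy'⟩ := hy
    exact ⟨x' * y', by rw [map_mul, map_mul, map_mul, hx', hy']⟩
  | hinv x hx =>
    obtain ⟨x', hx'⟩ := hx
    exact ⟨x'⁻¹, by rw [map_inv₀, map_inv₀, map_inv₀, hx']⟩

/-- the underlying function of the Atkin–Lehner involution -/
noncomputable def t2wFun (x : barField 𝕜 (N' * q)) : barField 𝕜 (N' * q) :=
  (t2w_exists_emb 𝕜 N' q h x).choose

theorem t2wEmb_t2wFun (x : barField 𝕜 (N' * q)) :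
    t2wEmb 𝕜 (N' * q) (t2wFun 𝕜 N' q h x) = t2wW N' q h (t2wEmb 𝕜 (N' * q) x) :=
  (t2w_exists_emb 𝕜 N' q h x).choose_spec

theorem t2wFun_eq_iff (x y : barField 𝕜 (N' * q)) :
    t2wFun 𝕜 N' q h x = y ↔ t2wEmb 𝕜 (N' * q) y = t2wW N' q h (t2wEmb 𝕜 (N' * q) x) := by
  constructor
  · rintro rfl
    exact t2wEmb_t2wFun 𝕜 N' q h x
  · intro hy
    apply t2wEmb_injective 𝕜 (N' * q)
    rw [t2wEmb_t2wFun, hy]

/-- the Atkin–Lehner involution as an algebra endomorphism -/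
noncomputable def t2wHom : barField 𝕜 (N' * q) →ₐ[𝕜] barField 𝕜 (N' * q) where
  toFun := t2wFun 𝕜 N' q h
  map_one' := by rw [t2wFun_eq_iff]; simp
  map_mul' a b := by
    rw [t2wFun_eq_iff, map_mul, map_mul, map_mul, t2wEmb_t2wFun, t2wEmb_t2wFun]
  map_zero' := by rw [t2wFun_eq_iff]; simp
  map_add' a b := by
    rw [t2wFun_eq_iff, map_add, map_add, map_add, t2wEmb_t2wFun, t2wEmb_t2wFun]
  commutes' c := by
    rw [t2wFun_eq_iff]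
    exact (t2wW_emb_const 𝕜 N' q h c).symm

theorem t2wEmb_t2wHom (x : barField 𝕜 (N' * q)) :
    t2wEmb 𝕜 (N' * q) (t2wHom 𝕜 N' q h x) = t2wW N' q h (t2wEmb 𝕜 (N' * q) x) :=
  t2wEmb_t2wFun 𝕜 N' q h x

theorem t2wHom_jd₁ {d : ℕ} (hd : d ∣ N') :
    t2wHom 𝕜 N' q h (t2wJd 𝕜 (N' * q) d (t2w_dvd₁ N' q hd))
      = t2wJd 𝕜 (N' * q) (q * d) (t2w_dvd₂ N' q hd) :=
  (t2wFun_eq_iff 𝕜 N' q h _ _).mpr (t2wW_emb_jd₁ 𝕜 N' q h hd).symm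

theorem t2wHom_jd₂ {d : ℕ} (hd : d ∣ N') :
    t2wHom 𝕜 N' q h (t2wJd 𝕜 (N' * q) (q * d) (t2w_dvd₂ N' q hd))
      = t2wJd 𝕜 (N' * q) d (t2w_dvd₁ N' q hd) :=
  (t2wFun_eq_iff 𝕜 N' q h _ _).mpr (t2wW_emb_jd₂ 𝕜 N' q h hd).symm

theorem t2wHom_t2wHom (x : barField 𝕜 (N' * q)) :
    t2wHom 𝕜 N' q h (t2wHom 𝕜 N' q h x) = x := by
  have key : ((t2wHom 𝕜 N' q h).comp (t2wHom 𝕜 N' q h) : barField 𝕜 (N' * q) →+* barField 𝕜 (N' * q))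
      = RingHom.id _ := by
    apply t2w_ringHom_ext
    · intro c
      simp
    · intro d hd
      rcases t2w_dvd_cases N' q hq.out hd with hd' | ⟨d', hd', rfl⟩
      · show t2wHom 𝕜 N' q h (t2wHom 𝕜 N' q h _) = _
        rw [t2wHom_jd₁ 𝕜 N' q h hd', t2wHom_jd₂ 𝕜 N' q h hd']
        rfl
      · show t2wHom 𝕜 N' q h (t2wHom 𝕜 N' q h _) = _
        rw [t2wHom_jd₂ 𝕜 N' q h hd', t2wHom_jd₁ 𝕜 N' q h hd']
        rfl
  exact RingHom.congr_fun key x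

/-- **the Atkin–Lehner involution `w_q`** of the function field of `X₀(N' q)` over `𝕜` -/
noncomputable def t2w : barField 𝕜 (N' * q) ≃ₐ[𝕜] barField 𝕜 (N' * q) :=
  AlgEquiv.ofAlgHom (t2wHom 𝕜 N' q h) (t2wHom 𝕜 N' q h)
    (AlgHom.ext (t2wHom_t2wHom 𝕜 N' q h)) (AlgHom.ext (t2wHom_t2wHom 𝕜 N' q h))

theorem t2w_apply (x : barField 𝕜 (N' * q)) : t2w 𝕜 N' q h x = t2wHom 𝕜 N' q h x := rfl

theorem t2w_symm : (t2w 𝕜 N' q h).symm = t2w 𝕜 N' q h := by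
  ext x
  rfl

theorem t2w_t2w (x : barField 𝕜 (N' * q)) : t2w 𝕜 N' q h (t2w 𝕜 N' q h x) = x :=
  t2wHom_t2wHom 𝕜 N' q h x

/-- `w_q (j(q^d)) = j(q^{q d})` for `d ∣ N'` -/
theorem t2w_jd₁ {d : ℕ} (hd : d ∣ N') :
    t2w 𝕜 N' q h (t2wJd 𝕜 (N' * q) d (t2w_dvd₁ N' q hd))
      = t2wJd 𝕜 (N' * q) (q * d) (t2w_dvd₂ N' q hd) :=
  t2wHom_jd₁ 𝕜 N' q h hd

/-- `w_q (j(q^{q d})) = j(q^d)` for `d ∣ N'` -/
theorem t2w_jd₂ {d : ℕ} (hd : d ∣ N') :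
    t2w 𝕜 N' q h (t2wJd 𝕜 (N' * q) (q * d) (t2w_dvd₂ N' q hd))
      = t2wJd 𝕜 (N' * q) d (t2w_dvd₁ N' q hd) :=
  t2wHom_jd₂ 𝕜 N' q h hd

/-- the analytic characterisation: under the embedding into meromorphic functions on `ℍ`, `w_q` is
precomposition with the Atkin–Lehner matrix -/
theorem t2wEmb_t2w (x : barField 𝕜 (N' * q)) :
    t2wEmb 𝕜 (N' * q) (t2w 𝕜 N' q h x) = t2wW N' q h (t2wEmb 𝕜 (N' * q) x) :=
  t2wEmb_t2wFun 𝕜 N' q h x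

/-- **`w_q ∘ α = β`**: on the function field of level `N'`, `w_q` is `f(q) ↦ f(q^q)` -/
theorem t2w_alpha (x : barField 𝕜 N') :
    t2w 𝕜 N' q h (heckeAlphaBar 𝕜 N' q x) = heckeBetaBar 𝕜 N' q x := by
  have key : (((t2w 𝕜 N' q h : barField 𝕜 (N' * q) ≃ₐ[𝕜] barField 𝕜 (N' * q)) :
        barField 𝕜 (N' * q) →+* barField 𝕜 (N' * q)).comp
        ((heckeAlphaBar 𝕜 N' q : barField 𝕜 N' →ₐ[𝕜] barField 𝕜 (N' * q)) :
          barField 𝕜 N' →+* barField 𝕜 (N' * q)))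
      = ((heckeBetaBar 𝕜 N' q : barField 𝕜 N' →ₐ[𝕜] barField 𝕜 (N' * q)) :
          barField 𝕜 N' →+* barField 𝕜 (N' * q)) := by
    apply t2w_ringHom_ext
    · intro c
      simp
    · intro d hd
      haveI : NeZero d := t2w_neZero_of_dvd N' hd
      show t2w 𝕜 N' q h (heckeAlphaBar 𝕜 N' q (t2wJd 𝕜 N' d hd))
        = heckeBetaBar 𝕜 N' q (t2wJd 𝕜 N' d hd)
      have h1 : heckeAlphaBar 𝕜 N' q (t2wJd 𝕜 N' d hd)
          = t2wJd 𝕜 (N' * q) d (t2w_dvd₁ N' q hd) := Subtype.ext rfl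
      rw [h1, t2w_jd₁ 𝕜 N' q h hd]
      apply Subtype.ext
      rw [coe_heckeBetaBar, coe_t2wJd 𝕜 N' d hd, coe_t2wJd 𝕜 (N' * q) (q * d), qExpand_qExpand]
  exact RingHom.congr_fun key x

theorem t2w_beta (x : barField 𝕜 N') :
    t2w 𝕜 N' q h (heckeBetaBar 𝕜 N' q x) = heckeAlphaBar 𝕜 N' q x := by
  rw [← t2w_alpha 𝕜 N' q h x, t2w_t2w]

end Main

end Fermat.Agent.T2
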