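/-
T2-W (lead), part 4: the Atkin–Lehner involution commutes with the arithmetic Galois action
(coefficientwise action of `σ : 𝕜 ≃ₐ[ℚ] 𝕜`).
-/
import Mathlib
import Fermat.Agent.Lib.T2.AL.Main
import Fermat.Prelude.Def_ModularCurve_ArithmeticGalois

set_option autoImplicit false
set_option linter.unusedSectionVars false
set_option linter.style.haveILetI false
set_option linter.unusedVariables false

namespace Fermat.Agent.T2

open Fermat.Agent.S24Lib Fermat.Agent.T1 Fermat.Agent.T1.KMod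
open UpperHalfPlane Matrix MatrixGroups ModularCurve HahnSeries

section Gen

variable (𝕜 : Type) [Field 𝕜] [Algebra ℚ 𝕜] (N : ℕ) [NeZero N]

/-- the generators `j(q^d)` have rational coefficients, hence are fixed by the arithmetic Galois
action -/
theorem t2w_arith_jd (σ : 𝕜 ≃ₐ[ℚ] 𝕜) (d : ℕ) (hd : d ∣ N) :
    arithmeticRingAut (modularFunctionFieldFull N) σ (t2wJd 𝕜 N d hd) = t2wJd 𝕜 N d hd := by
  haveI : NeZero d := t2w_neZero_of_dvd N hd
  apply Subtype.ext
  rw [coe_arithmeticRingAut_apply, coe_t2wJd' 𝕜 N d hd, coeffMap_coeffEmb]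

end Gen

section Main

variable (𝕜 : Type) [Field 𝕜] [IsAlgClosed 𝕜] [Algebra 𝕜 ℂ] [Algebra ℚ 𝕜]
variable (N' q : ℕ) [NeZero N'] [hq : Fact q.Prime] (h : ¬ q ∣ N')

/-- **`w_q` commutes with the arithmetic Galois action** -/
theorem t2w_comm (σ : 𝕜 ≃ₐ[ℚ] 𝕜) (x : barField 𝕜 (N' * q)) :
    t2w 𝕜 N' q h (arithmeticRingAut (modularFunctionFieldFull (N' * q)) σ x)
      = arithmeticRingAut (modularFunctionFieldFull (N' * q)) σ (t2w 𝕜 N' q h x) := by
  have key : (((t2w 𝕜 N' q h : barField 𝕜 (N' * q) ≃ₐ[𝕜] barField 𝕜 (N' * q)) :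
        barField 𝕜 (N' * q) →+* barField 𝕜 (N' * q)).comp
        ((arithmeticRingAut (modularFunctionFieldFull (N' * q)) σ :
          barField 𝕜 (N' * q) ≃+* barField 𝕜 (N' * q)) :
          barField 𝕜 (N' * q) →+* barField 𝕜 (N' * q)))
      = ((arithmeticRingAut (modularFunctionFieldFull (N' * q)) σ :
          barField 𝕜 (N' * q) ≃+* barField 𝕜 (N' * q)) :
          barField 𝕜 (N' * q) →+* barField 𝕜 (N' * q)).comp
        ((t2w 𝕜 N' q h : barField 𝕜 (N' * q) ≃ₐ[𝕜] barField 𝕜 (N' * q)) :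
        barField 𝕜 (N' * q) →+* barField 𝕜 (N' * q)) := by
    apply t2w_ringHom_ext
    · intro c
      show t2w 𝕜 N' q h (arithmeticRingAut _ σ (algebraMap 𝕜 _ c))
        = arithmeticRingAut _ σ (t2w 𝕜 N' q h (algebraMap 𝕜 _ c))
      rw [arithmeticRingAut_algebraMap, AlgEquiv.commutes, AlgEquiv.commutes,
        arithmeticRingAut_algebraMap]
    · intro d hd
      show t2w 𝕜 N' q h (arithmeticRingAut _ σ (t2wJd 𝕜 (N' * q) d hd))
        = arithmeticRingAut _ σ (t2w 𝕜 N' q h (t2wJd 𝕜 (N' * q) d hd))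
      rw [t2w_arith_jd]
      rcases t2w_dvd_cases N' q hq.out hd with hd' | ⟨d', hd', rfl⟩
      · rw [t2w_jd₁ 𝕜 N' q h hd', t2w_arith_jd]
      · rw [t2w_jd₂ 𝕜 N' q h hd', t2w_arith_jd]
  exact RingHom.congr_fun key x

/-- `w_q` commutes with the semilinear automorphisms `arithmeticGalois σ` -/
theorem t2w_comm_smul (σ : 𝕜 ≃ₐ[ℚ] 𝕜) (x : barField 𝕜 (N' * q)) :
    t2w 𝕜 N' q h (arithmeticGalois (modularFunctionFieldFull (N' * q)) σ • x)
      = arithmeticGalois (modularFunctionFieldFull (N' * q)) σ • (t2w 𝕜 N' q h x) :=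
  t2w_comm 𝕜 N' q h σ x

end Main

end Fermat.Agent.T2
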