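/-
T2-W (lead), part 5: restriction of the Atkin–Lehner involution to the finite levels
`F_H = tbLevF 𝔓 (N' * q) H` (function field of `X₀(N' q)` over `L_H = ℚ̄^H`, `H ≤ I_𝔓`).
-/
import Mathlib
import Fermat.Agent.Lib.T2.AL.Comm
import Fermat.Agent.Lib.T1.Inst.IntUp
import Fermat.Agent.Lib.T1.Desc.Basic
import Fermat.Agent.Lib.T1.Dict.DescentLin

set_option autoImplicit false
set_option linter.unusedSectionVars false
set_option linter.style.haveILetI false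
set_option linter.unusedVariables false
set_option synthInstance.maxHeartbeats 400000

namespace Fermat.Agent.T2

open Fermat.Agent.S24Lib Fermat.Agent.T1 Fermat.Agent.T1.KMod
open ModularCurve HahnSeries Fermat.Agent.TW Fermat.Agent.S05Lib

local notation "Qb" => AlgebraicClosure ℚ
local notation "GQ" => (AlgebraicClosure ℚ ≃ₐ[ℚ] AlgebraicClosure ℚ)

variable (𝔓 : FFPlace) (N : ℕ) [NeZero N] (H : Subgroup 𝔓.I)

/-- elements coming from level `H` are fixed by the coefficientwise action of `H` -/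
theorem t2w_arith_tbPhiF (σ : 𝔓.I) (hσ : σ ∈ H) (f : tbLevF 𝔓 N H) :
    arithmeticRingAut (modularFunctionFieldFull N) ((σ : 𝔓.I) : GQ) (tbPhiF 𝔓 N H f)
      = tbPhiF 𝔓 N H f := by
  apply Subtype.ext
  rw [coe_arithmeticRingAut_apply, coe_tbPhiF, tbPhi, coeffMap_coeffMap]
  refine coeffMap_congr (RingHom.ext fun a => ?_) _
  exact (mem_tbFix 𝔓 H (a : Qb)).mp a.2 σ hσ

/-- an element of `F_{ℚ̄}` fixed by the coefficientwise action of `H` comes from level `H` -/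
theorem t2w_exists_tbPhiF_eq (g : modularFunctionFieldBar N)
    (hg : ∀ σ : 𝔓.I, σ ∈ H →
      arithmeticRingAut (modularFunctionFieldFull N) ((σ : 𝔓.I) : GQ) g = g) :
    ∃ f : tbLevF 𝔓 N H, tbPhiF 𝔓 N H f = g := by
  have hcoeff : ∀ n, (g : LaurentSeries Qb).coeff n ∈ (algebraMap ↥(tbFix 𝔓 H) Qb).range := by
    intro n
    have hmem : (g : LaurentSeries Qb).coeff n ∈ tbFix 𝔓 H := by
      rw [mem_tbFix]
      intro σ hσ
      have := congrArg (fun x : modularFunctionFieldBar N => (x : LaurentSeries Qb).coeff n)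
        (hg σ hσ)
      simpa [coe_arithmeticRingAut_apply, coeffMap_coeff] using this
    exact ⟨⟨_, hmem⟩, rfl⟩
  obtain ⟨t, ht⟩ := tdd_mem_range_coeffMap (algebraMap ↥(tbFix 𝔓 H) Qb) _ hcoeff
  have htmem : t ∈ tbLevF 𝔓 N H := by
    apply tdx_mem_of_coeffMap_mem (modularFunctionFieldFull N) (algebraMap ↥(tbFix 𝔓 H) Qb)
    rw [ht]
    exact g.2
  exact ⟨⟨t, htmem⟩, Subtype.ext ht⟩

section AL

variable (N' q : ℕ) [NeZero N'] [hq : Fact q.Prime] (h : ¬ q ∣ N')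

theorem t2w_exists_lev (f : tbLevF 𝔓 (N' * q) H) :
    ∃ f' : tbLevF 𝔓 (N' * q) H,
      tbPhiF 𝔓 (N' * q) H f' = t2w Qb N' q h (tbPhiF 𝔓 (N' * q) H f) := by
  apply t2w_exists_tbPhiF_eq
  intro σ hσ
  rw [← t2w_comm, t2w_arith_tbPhiF 𝔓 (N' * q) H σ hσ]

/-- the underlying function of the Atkin–Lehner involution at level `H` -/
noncomputable def t2wLevFun (f : tbLevF 𝔓 (N' * q) H) : tbLevF 𝔓 (N' * q) H :=
  (t2w_exists_lev 𝔓 H N' q h f).choose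

theorem tbPhiF_t2wLevFun (f : tbLevF 𝔓 (N' * q) H) :
    tbPhiF 𝔓 (N' * q) H (t2wLevFun 𝔓 H N' q h f)
      = t2w Qb N' q h (tbPhiF 𝔓 (N' * q) H f) :=
  (t2w_exists_lev 𝔓 H N' q h f).choose_spec

theorem t2wLevFun_eq_iff (f f' : tbLevF 𝔓 (N' * q) H) :
    t2wLevFun 𝔓 H N' q h f = f'
      ↔ tbPhiF 𝔓 (N' * q) H f' = t2w Qb N' q h (tbPhiF 𝔓 (N' * q) H f) := by
  constructor
  · rintro rfl
    exact tbPhiF_t2wLevFun 𝔓 H N' q h f
  · intro hf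
    apply tbPhiF_injective 𝔓 (N' * q) H
    rw [tbPhiF_t2wLevFun, hf]

/-- the Atkin–Lehner involution at level `H` as an algebra endomorphism -/
noncomputable def t2wLevHom : tbLevF 𝔓 (N' * q) H →ₐ[↥(tbFix 𝔓 H)] tbLevF 𝔓 (N' * q) H where
  toFun := t2wLevFun 𝔓 H N' q h
  map_one' := by rw [t2wLevFun_eq_iff]; simp
  map_mul' a b := by
    rw [t2wLevFun_eq_iff, map_mul, map_mul, map_mul, tbPhiF_t2wLevFun, tbPhiF_t2wLevFun]
  map_zero' := by rw [t2wLevFun_eq_iff]; simp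
  map_add' a b := by
    rw [t2wLevFun_eq_iff, map_add, map_add, map_add, tbPhiF_t2wLevFun, tbPhiF_t2wLevFun]
  commutes' c := by
    rw [t2wLevFun_eq_iff, tbPhiF_algebraMap, AlgEquiv.commutes]

theorem tbPhiF_t2wLevHom (f : tbLevF 𝔓 (N' * q) H) :
    tbPhiF 𝔓 (N' * q) H (t2wLevHom 𝔓 H N' q h f)
      = t2w Qb N' q h (tbPhiF 𝔓 (N' * q) H f) :=
  tbPhiF_t2wLevFun 𝔓 H N' q h f

theorem t2wLevHom_t2wLevHom (f : tbLevF 𝔓 (N' * q) H) :
    t2wLevHom 𝔓 H N' q h (t2wLevHom 𝔓 H N' q h f) = f := by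
  apply tbPhiF_injective 𝔓 (N' * q) H
  rw [tbPhiF_t2wLevHom, tbPhiF_t2wLevHom, t2w_t2w]

/-- **the Atkin–Lehner involution of the function field of `X₀(N' q)` over `L_H`** -/
noncomputable def t2wLev : tbLevF 𝔓 (N' * q) H ≃ₐ[↥(tbFix 𝔓 H)] tbLevF 𝔓 (N' * q) H :=
  AlgEquiv.ofAlgHom (t2wLevHom 𝔓 H N' q h) (t2wLevHom 𝔓 H N' q h)
    (AlgHom.ext (t2wLevHom_t2wLevHom 𝔓 H N' q h)) (AlgHom.ext (t2wLevHom_t2wLevHom 𝔓 H N' q h))

/-- compatibility with the involution over `ℚ̄` -/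
theorem tbPhiF_t2wLev (f : tbLevF 𝔓 (N' * q) H) :
    tbPhiF 𝔓 (N' * q) H (t2wLev 𝔓 H N' q h f) = t2w Qb N' q h (tbPhiF 𝔓 (N' * q) H f) :=
  tbPhiF_t2wLevFun 𝔓 H N' q h f

theorem t2wLev_t2wLev (f : tbLevF 𝔓 (N' * q) H) :
    t2wLev 𝔓 H N' q h (t2wLev 𝔓 H N' q h f) = f :=
  t2wLevHom_t2wLevHom 𝔓 H N' q h f

theorem t2wLev_symm : (t2wLev 𝔓 H N' q h).symm = t2wLev 𝔓 H N' q h := by
  ext x
  rfl

/-- the generators at level `H` -/
theorem t2wLev_jd₁ {d : ℕ} (hd : d ∣ N') :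
    t2wLev 𝔓 H N' q h (t2wJd ↥(tbFix 𝔓 H) (N' * q) d (t2w_dvd₁ N' q hd))
      = t2wJd ↥(tbFix 𝔓 H) (N' * q) (q * d) (t2w_dvd₂ N' q hd) := by
  haveI : NeZero d := t2w_neZero_of_dvd N' hd
  have hphi : ∀ (e : ℕ) (he : e ∣ N' * q),
      tbPhiF 𝔓 (N' * q) H (t2wJd ↥(tbFix 𝔓 H) (N' * q) e he) = t2wJd Qb (N' * q) e he := by
    intro e he
    haveI : NeZero e := t2w_neZero_of_dvd (N' * q) he
    apply Subtype.ext
    rw [coe_tbPhiF, coe_t2wJd' _ (N' * q) e he, coe_t2wJd' _ (N' * q) e he]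
    exact tbd_coeffMap_coeffEmb _
  apply tbPhiF_injective 𝔓 (N' * q) H
  rw [tbPhiF_t2wLev, hphi, hphi, t2w_jd₁ Qb N' q h hd]

theorem t2wLev_jd₂ {d : ℕ} (hd : d ∣ N') :
    t2wLev 𝔓 H N' q h (t2wJd ↥(tbFix 𝔓 H) (N' * q) (q * d) (t2w_dvd₂ N' q hd))
      = t2wJd ↥(tbFix 𝔓 H) (N' * q) d (t2w_dvd₁ N' q hd) := by
  rw [← t2wLev_jd₁ 𝔓 H N' q h hd, t2wLev_t2wLev]

/-- `w_q ∘ α = β` at level `H` -/
theorem t2wLev_alpha (x : tbLevF 𝔓 N' H) :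
    t2wLev 𝔓 H N' q h (heckeAlphaBar ↥(tbFix 𝔓 H) N' q x) = heckeBetaBar ↥(tbFix 𝔓 H) N' q x := by
  apply tbPhiF_injective 𝔓 (N' * q) H
  rw [tbPhiF_t2wLev]
  have h1 : tbPhiF 𝔓 (N' * q) H (heckeAlphaBar ↥(tbFix 𝔓 H) N' q x)
      = heckeAlphaBar Qb N' q (tbPhiF 𝔓 N' H x) := by
    apply Subtype.ext
    rw [coe_tbPhiF, coe_heckeAlphaBar, coe_heckeAlphaBar, coe_tbPhiF]
  have h2 : tbPhiF 𝔓 (N' * q) H (heckeBetaBar ↥(tbFix 𝔓 H) N' q x)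
      = heckeBetaBar Qb N' q (tbPhiF 𝔓 N' H x) := by
    apply Subtype.ext
    rw [coe_tbPhiF, coe_heckeBetaBar, coe_heckeBetaBar, coe_tbPhiF, tbPhi, coeffMap_qExpand]
  rw [h1, h2, t2w_alpha]

/-- compatibility with the coefficientwise Galois action: if `f'` is the `σ`-conjugate of `f` (both of
level `H`), then `w_q f'` is the `σ`-conjugate of `w_q f` -/
theorem t2wLev_sigma (σ : GQ) (f f' : tbLevF 𝔓 (N' * q) H)
    (hff' : tbPhiF 𝔓 (N' * q) H f'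
      = arithmeticRingAut (modularFunctionFieldFull (N' * q)) σ (tbPhiF 𝔓 (N' * q) H f)) :
    tbPhiF 𝔓 (N' * q) H (t2wLev 𝔓 H N' q h f')
      = arithmeticRingAut (modularFunctionFieldFull (N' * q)) σ
          (tbPhiF 𝔓 (N' * q) H (t2wLev 𝔓 H N' q h f)) := by
  rw [tbPhiF_t2wLev, hff', t2w_comm, tbPhiF_t2wLev]

theorem t2wLev_beta (x : tbLevF 𝔓 N' H) :
    t2wLev 𝔓 H N' q h (heckeBetaBar ↥(tbFix 𝔓 H) N' q x) = heckeAlphaBar ↥(tbFix 𝔓 H) N' q x := by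
  rw [← t2wLev_alpha 𝔓 H N' q h x, t2wLev_t2wLev]

end AL

end Fermat.Agent.T2
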